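import Mathlib
import Fermat.Agent.MUL.Lib.HP.Deg
import Fermat.Agent.MUL.S36.Genus.Family

section MergeWrap_Lib_HP_Sep -- from Lib/HP/Sep.lean

set_option autoImplicit false
set_option linter.unusedSectionVars false
set_option linter.unusedVariables false
set_option linter.style.haveILetI false

/-!
# The curve `H_P`: the symmetry `X₁ ↔ X₂` and separability over `K(X₁)`, `K(X₂)`

In characteristic `q` the extensions `F / K(X₁)` and `F / K(X₂)` (of degree `q`) are separable:
`X₂` is a simple root of `X₁ T (X₁ - T)^(q-1) - c`, whose derivative at `X₂` is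
`X₁² (X₁ - X₂)^(q-2)`.
-/

noncomputable section

open IntermediateField AlgebraicCurve Polynomial

namespace Fermat.Agent.HP

open Fermat.Agent.RR Fermat.Agent.RRHur

/-- a root of `P` at which `P'` does not vanish is separable. -/
theorem hp_isSeparable_of_derivative {E L : Type*} [Field E] [Field L] [Algebra E L] {x : L}
    (P : E[X]) (h0 : aeval x P = 0) (h1 : aeval x (derivative P) ≠ 0) : IsSeparable E x := by
  have hP : P ≠ 0 := by
    intro h
    rw [h, derivative_zero, map_zero] at h1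
    exact h1 rfl
  have halg : IsAlgebraic E x := ⟨P, hP, h0⟩
  have hint : IsIntegral E x := halg.isIntegral
  unfold IsSeparable
  rw [Polynomial.separable_iff_derivative_ne_zero (minpoly.irreducible hint)]
  intro hm
  obtain ⟨g, hg⟩ := minpoly.dvd E x h0
  apply h1
  rw [hg, derivative_mul, hm, zero_mul, zero_add, map_mul, minpoly.aeval, zero_mul]

variable {K F : Type*} [Field K] [Field F] [Algebra K F] {q : ℕ}

namespace HPCurve

variable (H : HPCurve K F q)

theorem X1_sub_X2_ne : H.X1 - H.X2 ≠ 0 := by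
  intro h
  have h2 := H.rel
  have hq := H.q_two
  rw [h, zero_pow (by omega), mul_zero] at h2
  exact H.algebraMap_c_ne h2.symm

/-- the generator of `K(X₁)`. -/
def x1 : K⟮H.X1⟯ := ⟨H.X1, mem_adjoin_simple_self K H.X1⟩

theorem coe_x1 : (H.x1 : F) = H.X1 := rfl

theorem algebraMap_x1 : algebraMap K⟮H.X1⟯ F H.x1 = H.X1 := rfl

/-- the polynomial `X₁ T (X₁ - T)^(q-1) - c` over `K(X₁)`. -/
def polyX2 : Polynomial K⟮H.X1⟯ :=
  C H.x1 * (X * (C H.x1 - X) ^ (q - 1)) - C (algebraMap K K⟮H.X1⟯ H.c)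

theorem aeval_polyX2 : aeval H.X2 H.polyX2 = 0 := by
  unfold polyX2
  simp only [map_sub, map_mul, map_pow, aeval_X, aeval_C]
  rw [H.algebraMap_x1, ← mul_assoc, H.rel, sub_eq_zero]
  rfl

theorem aeval_derivative_polyX2 (hq0 : ((q : ℕ) : K) = 0) :
    aeval H.X2 (derivative H.polyX2) = H.X1 ^ 2 * (H.X1 - H.X2) ^ (q - 2) := by
  have hq := H.q_two
  have hqF : ((q : ℕ) : F) = 0 := by
    have := congrArg (algebraMap K F) hq0
    simpa using this
  have e1 : q - 1 = (q - 2) + 1 := by omega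
  unfold polyX2
  simp only [derivative_mul, derivative_C, derivative_X, derivative_pow,
    zero_mul, zero_add, zero_sub, one_mul, mul_one, sub_zero, map_sub, map_mul, map_pow,
    map_add, map_neg, aeval_X, aeval_C, map_natCast, mul_neg, map_one]
  rw [H.algebraMap_x1]
  have e2 : q - 1 - 1 = q - 2 := by omega
  rw [e2]
  have hq1F : ((q - 1 : ℕ) : F) = -1 := by
    rw [Nat.cast_sub (by omega), hqF]
    simp
  rw [hq1F]
  have e3 : (H.X1 - H.X2) ^ (q - 1) = (H.X1 - H.X2) ^ (q - 2) * (H.X1 - H.X2) := by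
    rw [e1, pow_succ]
  rw [e3]
  ring

theorem X1_mem_adjoin_X2 : H.X1 ∈ IntermediateField.adjoin K⟮H.X1⟯ {H.X2} :=
  IntermediateField.algebraMap_mem _ (⟨H.X1, mem_adjoin_simple_self K H.X1⟩ : K⟮H.X1⟯)

theorem X2_mem_adjoin_X2 : H.X2 ∈ IntermediateField.adjoin K⟮H.X1⟯ {H.X2} :=
  IntermediateField.mem_adjoin_simple_self _ _

/-- `F = K(X₁)(X₂)`. -/
theorem adjoin_X2_eq_top : IntermediateField.adjoin K⟮H.X1⟯ {H.X2} = ⊤ := by
  have h1 : (IntermediateField.adjoin K {H.X1, H.X2} : IntermediateField K F) ≤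
      (IntermediateField.adjoin K⟮H.X1⟯ {H.X2}).restrictScalars K := by
    apply IntermediateField.adjoin_le_iff.mpr
    intro x hx
    rcases hx with hx | hx
    · rw [hx]; exact H.X1_mem_adjoin_X2
    · rw [Set.mem_singleton_iff] at hx
      rw [hx]; exact H.X2_mem_adjoin_X2
  rw [H.gen] at h1
  apply top_unique
  intro x _
  exact h1 (IntermediateField.mem_top (F := K) (E := F) (x := x))

/-- in characteristic `q`, `F / K(X₁)` is separable. -/
theorem isSeparable_X1 (hq0 : ((q : ℕ) : K) = 0) : Algebra.IsSeparable K⟮H.X1⟯ F := by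
  have h1 : IsSeparable K⟮H.X1⟯ H.X2 := by
    refine hp_isSeparable_of_derivative H.polyX2 H.aeval_polyX2 ?_
    rw [H.aeval_derivative_polyX2 hq0]
    exact mul_ne_zero (pow_ne_zero _ H.X1_ne) (pow_ne_zero _ H.X1_sub_X2_ne)
  have h2 : Algebra.IsSeparable K⟮H.X1⟯ (IntermediateField.adjoin K⟮H.X1⟯ {H.X2}) :=
    (IntermediateField.isSeparable_adjoin_simple_iff_isSeparable K⟮H.X1⟯ F).mpr h1
  rw [H.adjoin_X2_eq_top] at h2
  exact AlgEquiv.Algebra.isSeparable (IntermediateField.topEquiv (F := K⟮H.X1⟯) (E := F))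

/-! ### the symmetry `X₁ ↔ X₂` -/

/-- the curve with `X₁` and `X₂` exchanged (`c` becomes `(-1)^(q-1) c`). -/
def swap [IsAlgClosed K] (hq1 : ((q + 1 : ℕ) : K) ≠ 0) : HPCurve K F q where
  X1 := H.X2
  X2 := H.X1
  c := (-1) ^ (q - 1) * H.c
  c_ne := mul_ne_zero (pow_ne_zero _ (neg_ne_zero.mpr one_ne_zero)) H.c_ne
  q_two := H.q_two
  rel := by
    rw [map_mul, map_pow, map_neg, map_one, ← H.rel]
    have : H.X2 - H.X1 = -1 * (H.X1 - H.X2) := by ring
    rw [this, mul_pow]
    ring
  gen := by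
    rw [← H.gen]
    congr 1
    exact Set.pair_comm _ _
  transc := H.X2_transcendental hq1

section Swap

variable [IsAlgClosed K] (hq1 : ((q + 1 : ℕ) : K) ≠ 0)

@[simp] theorem swap_X1 : (H.swap hq1).X1 = H.X2 := rfl

@[simp] theorem swap_X2 : (H.swap hq1).X2 = H.X1 := rfl

theorem swap_s : (H.swap hq1).s = H.s⁻¹ := by
  unfold s
  rw [swap_X1, swap_X2, inv_div]

/-- the zero of `s` for the swapped curve is the pole of `s`. -/
theorem swap_pInf : (H.swap hq1).pInf hq1 = H.pZero hq1 := by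
  apply H.eq_pZero hq1
  have h := (H.swap hq1).pInf_spec hq1
  rw [H.swap_s hq1, Place.ord_inv] at h
  omega

theorem swap_pZero : (H.swap hq1).pZero hq1 = H.pInf hq1 := by
  apply H.eq_pInf hq1
  have h := (H.swap hq1).pZero_spec hq1
  rw [H.swap_s hq1, Place.ord_inv] at h
  omega

/-- the places over `s = 1` are the same for the swapped curve. -/
theorem swap_mid_iff (v : Place K F) :
    0 < v.ord ((H.swap hq1).s - algebraMap K F 1) ↔ 0 < v.ord (H.s - algebraMap K F 1) := by
  have h1 : (H.swap hq1).s - algebraMap K F 1 = -(H.s - algebraMap K F 1) * H.s⁻¹ := by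
    rw [H.swap_s hq1, map_one]
    field_simp [H.s_ne]
    ring
  have hne : H.s - algebraMap K F 1 ≠ 0 := by
    intro h
    apply H.one_sub_s_ne
    rw [map_one] at h
    rw [← neg_eq_zero, neg_sub]
    exact h
  rw [h1, v.ord_mul (neg_ne_zero.mpr hne) (inv_ne_zero H.s_ne), hp_ord_neg, Place.ord_inv]
  constructor
  · intro h
    by_contra hcon
    push Not at hcon
    -- ord (s - 1) ≤ 0 and ord (s-1) - ord s > 0: so ord s < 0, then ord (s-1) = ord s
    have hs : v.ord H.s < 0 := by omega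
    have := ord_sub_const_of_pole v (1 : K) hs
    omega
  · intro h
    have := H.ord_s_of_zero_ne v one_ne_zero h
    omega

include hq1 in
/-- in characteristic `q`, `F / K(X₂)` is separable. -/
theorem isSeparable_X2 (hq0 : ((q : ℕ) : K) = 0) : Algebra.IsSeparable K⟮H.X2⟯ F :=
  (H.swap hq1).isSeparable_X1 hq0

end Swap

end HPCurve

end Fermat.Agent.HP
end
end MergeWrap_Lib_HP_Sep
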